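import Fermat.Agent.S18.H203.PolyInstance

/-!
# S18 / b1 + b2.1 (helper203): local freeness of a normal model along its special fibre

## Statement (`exists_lift_basis_package`)

`S` a Noetherian integrally closed domain, `w ∈ S` a prime element with `S̄ := S ⧸ (w)` a PID,
`K = Frac S`, `F / K` a finite field extension, `B` the integral closure of `S` in `F`, finite
as an `S`-module (automatic if `F / K` is separable).  Put `B̄ := B ⧸ (w) B`, `n := [F : K]`.
Then there are `b : Fin n → B` and an `S̄`-basis `b̄` of `B̄` with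

1. `b̄ i = b i mod w`;
2. the images of the `b i` form a `K`-basis of `F`;
3. (Nakayama) there is `r ∈ S`, `r ≡ 1 mod w`, with `r • B ⊆ span_S b`
   — so `b` is a basis of `B[1/r]` over `S[1/r]`, and of `B_𝔭` over `S_𝔭` for every prime
   `𝔭 ∋ w` of `S`;
4. traces commute with reduction: `Tr_{B̄/S̄} (β mod w) = (Tr_{F/K} β) mod w`;
5. discriminants commute with reduction: there is `d ∈ S` with `d = discr_K (b)` in `K` and
   `d mod w = discr_{S̄} (b̄)`.

## Application (`exists_lift_basis_package_polynomial`)

`S = R[x]`, `R` a discrete valuation ring with uniformiser `ϖ`, `w = C ϖ`, `S̄ = κ[x]`.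
-/

set_option autoImplicit false

namespace Fermat.Agent.S18.H203

open Ideal Polynomial

section

variable {S B : Type*} [CommRing S] [IsDomain S] [IsNoetherianRing S] [IsIntegrallyClosed S]
  [CommRing B] [Algebra S B]

/-- **b1 + b2.1, general form.** -/
theorem exists_lift_basis_package (K F : Type*) [Field K] [Algebra S K]
    [IsFractionRing S K] [Field F] [Algebra K F] [Algebra S F] [IsScalarTower S K F]
    [Algebra B F] [IsScalarTower S B F] [IsIntegralClosure B S F]
    [Module.Finite S B] [FiniteDimensional K F]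
    {w : S} (hw : Prime w) [IsPrincipalIdealRing (S ⧸ Ideal.span {w})] :
    ∃ (b : Fin (Module.finrank K F) → B)
      (bbar : Module.Basis (Fin (Module.finrank K F)) (S ⧸ Ideal.span {w})
        (B ⧸ (Ideal.span {w}).map (algebraMap S B)))
      (bK : Module.Basis (Fin (Module.finrank K F)) K F),
      (∀ i, bbar i = redB (S := S) w (b i)) ∧
      (∀ i, bK i = algebraMap B F (b i)) ∧
      (∃ r : S, r - 1 ∈ Ideal.span {w} ∧ ∀ β : B, r • β ∈ Submodule.span S (Set.range b)) ∧
      (∀ (β : B) (τ : S), algebraMap S K τ = Algebra.trace K F (algebraMap B F β) →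
        Algebra.trace (S ⧸ Ideal.span {w}) (B ⧸ (Ideal.span {w}).map (algebraMap S B))
          (redB (S := S) w β) = redS w τ) ∧
      ∃ d : S, algebraMap S K d = Algebra.discr K (fun i => algebraMap B F (b i)) ∧
        redS w d = Algebra.discr (S ⧸ Ideal.span {w}) bbar := by
  classical
  have : (Ideal.span {w}).IsPrime := (Ideal.span_singleton_prime hw.ne_zero).mpr hw
  have hfree := free_quotient (B := B) K F hw
  have hfin := finite_quotient (B := B) (Ideal.span {w})
  -- a basis of the special fibre
  let ι := Module.Free.ChooseBasisIndex (S ⧸ Ideal.span {w})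
    (B ⧸ (Ideal.span {w}).map (algebraMap S B))
  let b₀ : Module.Basis ι (S ⧸ Ideal.span {w}) (B ⧸ (Ideal.span {w}).map (algebraMap S B)) :=
    Module.Free.chooseBasis _ _
  have : Fintype ι := Module.Free.ChooseBasisIndex.fintype _ _
  choose c hc using fun i => Ideal.Quotient.mk_surjective (b₀ i)
  have hfun : (fun i => redB (S := S) w (c i)) = ⇑b₀ := funext hc
  have hli : LinearIndependent (S ⧸ Ideal.span {w}) fun i => redB (S := S) w (c i) := by
    rw [hfun]; exact b₀.linearIndependent
  have hspan : Submodule.span (S ⧸ Ideal.span {w})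
      (Set.range fun i => redB (S := S) w (c i)) = ⊤ := by
    rw [hfun]; exact b₀.span_eq
  have hcard : Fintype.card ι = Module.finrank K F := card_eq_finrank K F hw c hli hspan
  -- reindex by `Fin n`
  let e : ι ≃ Fin (Module.finrank K F) := Fintype.equivFinOfCardEq hcard
  let b : Fin (Module.finrank K F) → B := fun i => c (e.symm i)
  let bbar := b₀.reindex e
  have hbbar : ∀ i, bbar i = redB (S := S) w (b i) := fun i => by
    simp only [bbar, b, Module.Basis.reindex_apply, hc]
  have hfun' : (fun i => redB (S := S) w (b i)) = ⇑bbar := funext fun i => (hbbar i).symm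
  have hli' : LinearIndependent (S ⧸ Ideal.span {w}) fun i => redB (S := S) w (b i) := by
    rw [hfun']; exact bbar.linearIndependent
  have hspan' : Submodule.span (S ⧸ Ideal.span {w})
      (Set.range fun i => redB (S := S) w (b i)) = ⊤ := by
    rw [hfun']; exact bbar.span_eq
  refine ⟨b, bbar, basisOfLift K F hw b hli' hspan', hbbar,
    fun i => basisOfLift_apply K F hw b hli' hspan' i,
    exists_smul_mem_span w b hspan',
    fun β τ hτ => trace_redB K F hw bbar β τ hτ,
    exists_discr_eq K F hw bbar b fun i => (hbbar i).symm⟩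

end

section Poly

variable {R B : Type*} [CommRing R] [IsDomain R] [IsDiscreteValuationRing R]
  [CommRing B] [Algebra R[X] B]

/-- **b1 + b2.1 for `S = R[x]`, `R` a DVR with uniformiser `ϖ`.** -/
theorem exists_lift_basis_package_polynomial (K F : Type*) [Field K] [Algebra R[X] K]
    [IsFractionRing R[X] K] [Field F] [Algebra K F] [Algebra R[X] F] [IsScalarTower R[X] K F]
    [Algebra B F] [IsScalarTower R[X] B F] [IsIntegralClosure B R[X] F]
    [Module.Finite R[X] B] [FiniteDimensional K F]
    {ϖ : R} (hϖ : Irreducible ϖ) :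
    ∃ (b : Fin (Module.finrank K F) → B)
      (bbar : Module.Basis (Fin (Module.finrank K F)) (R[X] ⧸ Ideal.span {(C ϖ : R[X])})
        (B ⧸ (Ideal.span {(C ϖ : R[X])}).map (algebraMap R[X] B)))
      (bK : Module.Basis (Fin (Module.finrank K F)) K F),
      (∀ i, bbar i = redB (S := R[X]) (C ϖ) (b i)) ∧
      (∀ i, bK i = algebraMap B F (b i)) ∧
      (∃ r : R[X], r - 1 ∈ Ideal.span {(C ϖ : R[X])} ∧
        ∀ β : B, r • β ∈ Submodule.span R[X] (Set.range b)) ∧
      (∀ (β : B) (τ : R[X]), algebraMap R[X] K τ = Algebra.trace K F (algebraMap B F β) →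
        Algebra.trace (R[X] ⧸ Ideal.span {(C ϖ : R[X])})
          (B ⧸ (Ideal.span {(C ϖ : R[X])}).map (algebraMap R[X] B))
          (redB (S := R[X]) (C ϖ) β) = redS (C ϖ) τ) ∧
      ∃ d : R[X], algebraMap R[X] K d = Algebra.discr K (fun i => algebraMap B F (b i)) ∧
        redS (C ϖ) d = Algebra.discr (R[X] ⧸ Ideal.span {(C ϖ : R[X])}) bbar := by
  have hprime : Prime ϖ := hϖ.prime
  have hmax : (Ideal.span {ϖ}).IsMaximal := by
    rw [← hϖ.maximalIdeal_eq]
    exact IsLocalRing.maximalIdeal.isMaximal R
  have := isPrincipalIdealRing_quotient_C ϖ hmax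
  exact exists_lift_basis_package K F (prime_C_of_prime hprime)

end Poly

end Fermat.Agent.S18.H203
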