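import Fermat.Agent.S18.H203.TraceRed

/-!
# S18 / b1 (helper203): the application `S = R[x]`, `w = ϖ`

For a commutative ring `R` and `ϖ ∈ R` generating a maximal ideal, `R[x] ⧸ (ϖ) ≅ (R/ϖ)[x]` is a
principal ideal ring; if `R` is a domain and `ϖ` is prime then `C ϖ` is prime in `R[x]`.
Together with Mathlib's instances (`R[x]` is Noetherian / a UFD, hence integrally closed, when `R`
is a DVR) this discharges all the hypotheses on `S` in `QuotFree.lean`, `LiftBasis.lean`,
`KBasis.lean`, `TraceRed.lean`.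
-/

set_option autoImplicit false

namespace Fermat.Agent.S18.H203

open Polynomial Ideal

section

variable {R : Type*} [CommRing R]

/-- `(ϖ) R[x] = (C ϖ)`. -/
theorem map_C_span_singleton (ϖ : R) :
    (Ideal.span {ϖ}).map (C : R →+* R[X]) = Ideal.span {C ϖ} := by
  rw [Ideal.map_span, Set.image_singleton]

/-- `R[x] ⧸ (C ϖ)` is a principal ideal ring when `(ϖ)` is maximal. -/
theorem isPrincipalIdealRing_quotient_C (ϖ : R) (hmax : (Ideal.span {ϖ}).IsMaximal) :
    IsPrincipalIdealRing (R[X] ⧸ Ideal.span {(C ϖ : R[X])}) := by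
  let _ : Field (R ⧸ Ideal.span {ϖ}) := Ideal.Quotient.field _
  let e : (R ⧸ Ideal.span {ϖ})[X] ≃+* R[X] ⧸ (Ideal.span {ϖ}).map (C : R →+* R[X]) :=
    Ideal.polynomialQuotientEquivQuotientPolynomial (Ideal.span {ϖ})
  let e' : R[X] ⧸ (Ideal.span {ϖ}).map (C : R →+* R[X]) ≃+* R[X] ⧸ Ideal.span {(C ϖ : R[X])} :=
    Ideal.quotEquivOfEq (map_C_span_singleton ϖ)
  exact IsPrincipalIdealRing.of_surjective (e.trans e').toRingHom (e.trans e').surjective

/-- `C ϖ` is prime in `R[x]` when `ϖ` is prime in the domain `R`. -/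
theorem prime_C_of_prime [IsDomain R] {ϖ : R} (h : Prime ϖ) : Prime (C ϖ : R[X]) :=
  Polynomial.prime_C_iff.mpr h

end

end Fermat.Agent.S18.H203
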